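import Fermat.Agent.S25.DICT.H5688.H79.ModGlue

/-!
# Scalar endomorphisms of sheaves of modules and their pullbacks

`scal M s : M ⟶ M` is multiplication by a global function `s : Γ(X, ⊤)`.
`pullback_map_scal` : `(pullback f).map (scal M s) = scal _ (f.appTop s)`.
-/

set_option autoImplicit false

universe u

open CategoryTheory AlgebraicGeometry TopologicalSpace Opposite

noncomputable section

namespace Fermat.Agent.S25.DICT.H5688.H79

variable {X : Scheme.{u}}

/-- multiplication by a global function on the sections over `V` -/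
def scalAdd (M : X.Modules) (s : Γ(X, ⊤)) (V : X.Opens) : Γ(M, V) →+ Γ(M, V) where
  toFun x := resO X (le_top : V ≤ ⊤) s • x
  map_zero' := smul_zero _
  map_add' := smul_add _

theorem scalAdd_apply (M : X.Modules) (s : Γ(X, ⊤)) (V : X.Opens) (x : Γ(M, V)) :
    scalAdd M s V x = resO X (le_top : V ≤ ⊤) s • x := rfl

theorem scalAdd_res (M : X.Modules) (s : Γ(X, ⊤)) {V W : X.Opens} (h : W ≤ V) (t : Γ(M, V)) :
    scalAdd M s W (res M h t) = res M h (scalAdd M s V t) := by
  rw [scalAdd_apply, scalAdd_apply, res_smul, resO_resO]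

theorem scalAdd_smul (M : X.Modules) (s : Γ(X, ⊤)) (V : X.Opens) (r : Γ(X, V)) (t : Γ(M, V)) :
    scalAdd M s V (r • t) = r • scalAdd M s V t := by
  rw [scalAdd_apply, scalAdd_apply, smul_comm]

/-- Multiplication by a global function, as an endomorphism of a sheaf of modules. -/
def scal (M : X.Modules) (s : Γ(X, ⊤)) : M ⟶ M :=
  ⟨PresheafOfModules.homMk
    { app := fun W => AddCommGrpCat.ofHom (scalAdd M s W.unop)
      naturality := by
        intro W W' i
        apply AddCommGrpCat.hom_ext
        apply AddMonoidHom.ext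
        intro t
        exact scalAdd_res M s (leOfHom i.unop) t }
    (by
      intro W r t
      exact scalAdd_smul M s W.unop r t)⟩

theorem scal_app (M : X.Modules) (s : Γ(X, ⊤)) (V : X.Opens) (x : Γ(M, V)) :
    (scal M s).app V x = resO X (le_top : V ≤ ⊤) s • x := rfl

theorem scal_one (M : X.Modules) : scal M 1 = 𝟙 M := by
  apply Scheme.Modules.hom_ext
  intro V
  apply AddCommGrpCat.hom_ext
  apply AddMonoidHom.ext
  intro x
  rw [scal_app, map_one, one_smul]
  rfl

theorem scal_mul (M : X.Modules) (s t : Γ(X, ⊤)) : scal M (s * t) = scal M t ≫ scal M s := by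
  apply Scheme.Modules.hom_ext
  intro V
  apply AddCommGrpCat.hom_ext
  apply AddMonoidHom.ext
  intro x
  change (scal M (s * t)).app V x = (scal M s).app V ((scal M t).app V x)
  rw [scal_app, scal_app, scal_app, map_mul, mul_smul]

/-- Scalar endomorphisms commute with every morphism of modules. -/
theorem scal_comm {M N : X.Modules} (g : M ⟶ N) (s : Γ(X, ⊤)) : scal M s ≫ g = g ≫ scal N s := by
  apply Scheme.Modules.hom_ext
  intro V
  apply AddCommGrpCat.hom_ext
  apply AddMonoidHom.ext
  intro x
  change g.app V ((scal M s).app V x) = (scal N s).app V (g.app V x)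
  rw [scal_app, scal_app, app_smul']


section pushforward

variable {Y : Scheme.{u}} (f : Y ⟶ X)

/-- The (definitional) identification of the sections of a pushforward. -/
def toP (N : Y.Modules) (V : X.Opens) :
    Γ(N, f ⁻¹ᵁ V) ≃+ Γ((Scheme.Modules.pushforward f).obj N, V) :=
  AddEquiv.refl _

theorem toP_smul (N : Y.Modules) (V : X.Opens) (r : Γ(X, V)) (y : Γ(N, f ⁻¹ᵁ V)) :
    r • toP f N V y = toP f N V (f.app V r • y) := rfl

theorem toP_map (N : Y.Modules) (g : N ⟶ N) (V : X.Opens) (y : Γ(N, f ⁻¹ᵁ V)) :
    ((Scheme.Modules.pushforward f).map g).app V (toP f N V y) = toP f N V (g.app (f ⁻¹ᵁ V) y) :=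
  rfl

theorem app_resO_top (V : X.Opens) (s : Γ(X, ⊤)) :
    f.app V (resO X (le_top : V ≤ ⊤) s) = resO Y (le_top : f ⁻¹ᵁ V ≤ ⊤) (f.appTop s) := by
  have := f.naturality (homOfLE (le_top : V ≤ ⊤)).op
  exact congr($this s)

/-- A morphism into a pushforward intertwines multiplication by `s` with multiplication by
`f^♯ s`. -/
theorem scal_comp_pushforward {M : X.Modules} {N : Y.Modules}
    (η : M ⟶ (Scheme.Modules.pushforward f).obj N) (s : Γ(X, ⊤)) :
    scal M s ≫ η = η ≫ (Scheme.Modules.pushforward f).map (scal N (f.appTop s)) := by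
  apply Scheme.Modules.hom_ext
  intro V
  apply AddCommGrpCat.hom_ext
  apply AddMonoidHom.ext
  intro x
  change η.app V ((scal M s).app V x) =
    ((Scheme.Modules.pushforward f).map (scal N (f.appTop s))).app V (η.app V x)
  rw [scal_app, app_smul']
  obtain ⟨y, hy⟩ := (toP f N V).surjective (η.app V x)
  rw [← hy, toP_smul, toP_map, scal_app, app_resO_top]

/-- **Pullback is linear over global functions**: the pullback of multiplication by `s` is
multiplication by `f^♯ s`. -/
theorem pullback_map_scal (M : X.Modules) (s : Γ(X, ⊤)) :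
    (Scheme.Modules.pullback f).map (scal M s) =
      scal ((Scheme.Modules.pullback f).obj M) (f.appTop s) := by
  apply ((Scheme.Modules.pullbackPushforwardAdjunction f).homEquiv M _).injective
  rw [Adjunction.homEquiv_unit, Adjunction.homEquiv_unit,
    ← scal_comp_pushforward f ((Scheme.Modules.pullbackPushforwardAdjunction f).unit.app M) s]
  exact ((Scheme.Modules.pullbackPushforwardAdjunction f).unit.naturality (scal M s)).symm

end pushforward

end Fermat.Agent.S25.DICT.H5688.H79

end
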