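import Fermat.Agent.S25.DICT.H5688.H79.InvGlue
import Fermat.Agent.S25.DICT.H5688.H79.Scal

/-!
# Endomorphisms of an invertible sheaf are multiplications by global functions
-/

set_option autoImplicit false

universe u

open CategoryTheory AlgebraicGeometry TopologicalSpace Opposite

noncomputable section

namespace Fermat.Agent.S25.DICT.H5688.H79

variable {X : Scheme.{u}}

/-- the structure sheaf as a module -/
abbrev OMod (X : Scheme.{u}) : X.Modules := SheafOfModules.unit X.ringCatSheaf

/-- The (definitional) identification of functions with sections of the structure sheaf. -/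
def toO (X : Scheme.{u}) (V : X.Opens) : Γ(X, V) ≃+ Γ(OMod X, V) :=
  AddEquiv.refl _

theorem toO_res {V W : X.Opens} (h : W ≤ V) (r : Γ(X, V)) :
    res (OMod X) h (toO X V r) = toO X W (resO X h r) := rfl

theorem toO_smul (V : X.Opens) (r r' : Γ(X, V)) :
    r • toO X V r' = toO X V (r * r') := rfl


/-- A local trivialisation in the sense of the Prelude gives an isomorphism of restricted
modules with the structure sheaf. -/
def trivIso (M : X.Modules) (U : X.Opens)
    (e : (Scheme.Modules.pullback U.ι).obj M ≅ SheafOfModules.unit U.toScheme.ringCatSheaf) :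
    M.restrict U.ι ≅ (OMod X).restrict U.ι :=
  (Scheme.Modules.restrictFunctorIsoPullback U.ι).app M ≪≫ e ≪≫
    (Scheme.Modules.restrictUnitIso U.ι).symm

section local_gen

variable {M : X.Modules} {U : X.Opens} (τ : M.restrict U.ι ≅ (OMod X).restrict U.ι)

/-- the local generator of `M` over `V ≤ U` given by a trivialisation -/
def gen (V : X.Opens) (h : V ≤ U) : Γ(M, V) :=
  secMap τ.inv V h (toO X V 1)

/-- the coordinate of a section with respect to the local generator -/
def coord (V : X.Opens) (h : V ≤ U) (x : Γ(M, V)) : Γ(X, V) :=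
  (toO X V).symm (secMap τ.hom V h x)

theorem coord_smul_gen (V : X.Opens) (h : V ≤ U) (x : Γ(M, V)) :
    coord τ V h x • gen τ V h = x := by
  unfold gen coord
  rw [← secMap_smul, toO_smul, mul_one, AddEquiv.apply_symm_apply, secMap_inv_hom]

theorem gen_res {V W : X.Opens} (h : V ≤ U) (hW : W ≤ V) :
    res M hW (gen τ V h) = gen τ W (hW.trans h) := by
  unfold gen
  rw [← secMap_res, toO_res, map_one]

theorem smul_gen_inj (V : X.Opens) (h : V ≤ U) (r r' : Γ(X, V))
    (hr : r • gen τ V h = r' • gen τ V h) : r = r' := by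
  unfold gen at hr
  rw [← secMap_smul, ← secMap_smul, toO_smul, toO_smul, mul_one, mul_one] at hr
  have h2 := congrArg (secMap τ.hom V h) hr
  rw [secMap_hom_inv, secMap_hom_inv] at h2
  exact (toO X V).injective h2

/-- An endomorphism is, over `U`, multiplication by a function on `U`. -/
theorem app_eq_smul_of_triv (g : M ⟶ M) (V : X.Opens) (h : V ≤ U) (x : Γ(M, V)) :
    g.app V x = resO X h (coord τ U le_rfl (g.app U (gen τ U le_rfl))) • x := by
  have h1 : g.app V (gen τ V h) =
      resO X h (coord τ U le_rfl (g.app U (gen τ U le_rfl))) • gen τ V h := by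
    rw [← gen_res τ le_rfl h, app_res, ← res_smul, coord_smul_gen]
  conv_lhs => rw [← coord_smul_gen τ V h x]
  rw [app_smul', h1, smul_comm, coord_smul_gen]

end local_gen

/-- **Endomorphisms of an invertible sheaf**: every endomorphism is multiplication by a unique
global function. -/
theorem exists_unique_scal_of_isInvertible {M : X.Modules} (hM : Scheme.Modules.IsInvertible M)
    (g : M ⟶ M) : ∃! s : Γ(X, ⊤), g = scal M s := by
  choose U hxU e using hM.1
  let τ : ∀ x : X, M.restrict (U x).ι ≅ (OMod X).restrict (U x).ι :=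
    fun x => trivIso M (U x) (e x).some
  have hcov : (⊤ : X.Opens) ≤ ⨆ x, U x := by
    intro x _
    exact TopologicalSpace.Opens.mem_iSup.mpr ⟨x, hxU x⟩
  have hcov' : ⨆ x, U x = ⊤ := top_le_iff.mp hcov
  let c : ∀ x : X, Γ(X, U x) := fun x =>
    coord (τ x) (U x) le_rfl (g.app (U x) (gen (τ x) (U x) le_rfl))
  have hc : ∀ (x : X) (V : X.Opens) (h : V ≤ U x) (y : Γ(M, V)),
      g.app V y = resO X h (c x) • y := fun x V h y => app_eq_smul_of_triv (τ x) g V h y
  have hcompat : ∀ x y : X, resO X (inf_le_left : U x ⊓ U y ≤ U x) (c x) =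
      resO X (inf_le_right : U x ⊓ U y ≤ U y) (c y) := by
    intro x y
    apply smul_gen_inj (τ x) (U x ⊓ U y) inf_le_left
    rw [← hc x, ← hc y]
  obtain ⟨z, hz⟩ := res_glue (OMod X) U ⊤ (fun _ => le_top) hcov (fun x => toO X (U x) (c x)) (by
    intro x y
    rw [toO_res, toO_res, hcompat])
  have hs : ∀ x, resO X (le_top : U x ≤ ⊤) ((toO X ⊤).symm z) = c x := by
    intro x
    apply (toO X (U x)).injective
    rw [← toO_res, AddEquiv.apply_symm_apply, hz]
  refine ⟨(toO X ⊤).symm z, ?_, ?_⟩
  · apply Scheme.Modules.hom_ext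
    intro V
    apply AddCommGrpCat.hom_ext
    apply AddMonoidHom.ext
    intro y
    apply glueHom_ext U hcov' M V
    intro x
    rw [← app_res, hc x _ inf_le_right, scal_app, res_smul, ← hs x, resO_resO, resO_resO]
  · intro s' hs'
    have h1 : ∀ x, resO X (le_top : U x ≤ ⊤) s' = c x := by
      intro x
      apply smul_gen_inj (τ x) (U x) le_rfl
      rw [← scal_app, ← hs', hc x (U x) le_rfl, resO_self]
    apply (toO X ⊤).injective
    rw [AddEquiv.apply_symm_apply]
    apply res_ext (OMod X) U ⊤ (fun _ => le_top) hcov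
    intro x
    rw [toO_res, h1 x, hz x]

/-- Automorphisms of an invertible sheaf: any two isomorphisms between invertible sheaves
differ by multiplication by a global function. -/
theorem iso_eq_scal_comp {M M' : X.Modules} (hM : Scheme.Modules.IsInvertible M)
    (α β : M ≅ M') : ∃ s : Γ(X, ⊤), β.hom = scal M s ≫ α.hom := by
  obtain ⟨s, hs, -⟩ := exists_unique_scal_of_isInvertible hM (β.hom ≫ α.inv)
  refine ⟨s, ?_⟩
  rw [← hs, Category.assoc, Iso.inv_hom_id, Category.comp_id]

end Fermat.Agent.S25.DICT.H5688.H79

end
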