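import Fermat.Prelude.Def_AlgebraicGeometry_RelativePicardFunctor
import Fermat.Agent.S25.DICT.H5688.H79.ModGlue

/-!
# Invertibility (in the sense of the Prelude) is local, and glued modules are invertible
-/

set_option autoImplicit false

universe u

open CategoryTheory AlgebraicGeometry TopologicalSpace Opposite

noncomputable section

namespace Fermat.Agent.S25.DICT.H5688.H79

variable {X : Scheme.{u}}

theorem isInvertible_of_iso {M M' : X.Modules} (e : M ≅ M')
    (h : Scheme.Modules.IsInvertible M) : Scheme.Modules.IsInvertible M' := by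
  refine ⟨fun x => ?_⟩
  obtain ⟨U, hx, ⟨i⟩⟩ := h.1 x
  exact ⟨U, hx, ⟨(Scheme.Modules.pullback U.ι).mapIso e.symm ≪≫ i⟩⟩

theorem isInvertible_restrict {Y : Scheme.{u}} (f : Y ⟶ X) [IsOpenImmersion f] {M : X.Modules}
    (h : Scheme.Modules.IsInvertible M) : Scheme.Modules.IsInvertible (M.restrict f) :=
  isInvertible_of_iso ((Scheme.Modules.restrictFunctorIsoPullback f).app M).symm (h.pullback f)

/-- A trivialisation of `M|_U` on an open `W` of `U` gives a trivialisation of `M` on the image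
of `W` in `X`. -/
theorem trivial_on_image (M : X.Modules) (U : X.Opens) (W : U.toScheme.Opens)
    (e : (Scheme.Modules.pullback W.ι).obj (M.restrict U.ι) ≅
      SheafOfModules.unit W.toScheme.ringCatSheaf) :
    Nonempty ((Scheme.Modules.pullback (U.ι ''ᵁ W).ι).obj M ≅
      SheafOfModules.unit (U.ι ''ᵁ W).toScheme.ringCatSheaf) := by
  let a := U.ι.isoImage W
  have ha : a.inv ≫ W.ι ≫ U.ι = (U.ι ''ᵁ W).ι := Scheme.Hom.isoImage_inv_ι U.ι W
  exact ⟨(Scheme.Modules.pullbackCongr ha.symm).app M ≪≫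
    ((Scheme.Modules.pullbackComp a.inv (W.ι ≫ U.ι)).app M).symm ≪≫
    (Scheme.Modules.pullback a.inv).mapIso
      (((Scheme.Modules.pullbackComp W.ι U.ι).app M).symm ≪≫
        (Scheme.Modules.pullback W.ι).mapIso
          ((Scheme.Modules.restrictFunctorIsoPullback U.ι).app M).symm ≪≫ e) ≪≫
    Scheme.Modules.pullbackUnitIso a.inv⟩

/-- Invertibility is local on an open cover. -/
theorem isInvertible_of_cover {ι : Type*} (U : ι → X.Opens) (hU : ⨆ i, U i = ⊤) (M : X.Modules)
    (h : ∀ i, Scheme.Modules.IsInvertible (M.restrict (U i).ι)) :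
    Scheme.Modules.IsInvertible M := by
  refine ⟨fun x => ?_⟩
  have hx : x ∈ ⨆ i, U i := by rw [hU]; trivial
  obtain ⟨i, hi⟩ := TopologicalSpace.Opens.mem_iSup.mp hx
  obtain ⟨W, hxW, ⟨e⟩⟩ := (h i).1 ⟨x, hi⟩
  exact ⟨(U i).ι ''ᵁ W, ⟨⟨x, hi⟩, hxW, rfl⟩, trivial_on_image M (U i) W e⟩

/-- The glued module of (locally) invertible modules is invertible. -/
theorem isInvertible_glue {ι : Type u} (U : ι → X.Opens) (hU : ⨆ i, U i = ⊤) (N : ι → X.Modules)
    (φ : ∀ i j, (N i).restrict (U i ⊓ U j).ι ≅ (N j).restrict (U i ⊓ U j).ι)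
    (h : SecCocycle U N φ)
    (hN : ∀ i, Scheme.Modules.IsInvertible ((N i).restrict (U i).ι)) :
    Scheme.Modules.IsInvertible (glue U N φ h) :=
  isInvertible_of_cover U hU _ (fun i => isInvertible_of_iso (glueIso U N φ h i).symm (hN i))

end Fermat.Agent.S25.DICT.H5688.H79

end
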